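import Mathlib.NumberTheory.LegendreSymbol.QuadraticChar.Basic
import Mathlib.NumberTheory.Padics.RingHoms
import Mathlib.Tactic

/-!
# The bad classes of a prime

For odd `p`, if `p ‖ vᵢ` and `-vⱼ vₖ` is a nonresidue modulo `p`, then `∑ vᵢ xᵢ²` has no nontrivial
zero in `ℚ_[p]`; of the `p⁶` classes modulo `p²` exactly `3 p² (p - 1)³ / 2` are of this kind.
-/

set_option autoImplicit false
set_option linter.style.haveILetI false

noncomputable section

open scoped Classical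

namespace FA.ConicCount

/-- The classes without a zero in `ℚ_[p]` used by the sieve. -/
def BadAt (p : ℕ) (v : Fin 3 → ℤ) : Prop :=
  ∃ i : Fin 3, (p : ℤ) ∣ v i ∧ ¬(p : ℤ) ^ 2 ∣ v i ∧ ¬(p : ℤ) ∣ v (i + 1) ∧
    ¬(p : ℤ) ∣ v (i + 2) ∧ ¬IsSquare ((-(v (i + 1) * v (i + 2)) : ℤ) : ZMod p)

/-- A zero in a `ℚ_[p]`-scaling. -/
theorem exists_integral_zero {p : ℕ} [Fact p.Prime] {v : Fin 3 → ℤ} {x : Fin 3 → ℚ_[p]}
    (hx : x ≠ 0) (h : ∑ i, (v i : ℚ_[p]) * x i ^ 2 = 0) :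
    ∃ y : Fin 3 → ℤ_[p], (∃ k, y k = 1) ∧ ∑ i, (v i : ℤ_[p]) * y i ^ 2 = 0 := by
  obtain ⟨k, -, hk⟩ := Finset.exists_max_image Finset.univ (fun i => ‖x i‖) Finset.univ_nonempty
  have hk0 : x k ≠ 0 := fun h0 => hx (funext fun i => by
    have := hk i (Finset.mem_univ i)
    rw [h0, norm_zero] at this
    exact norm_le_zero_iff.mp this)
  have hle : ∀ i, ‖x i / x k‖ ≤ 1 := fun i => by
    rw [norm_div, div_le_one (norm_pos_iff.mpr hk0)]
    exact hk i (Finset.mem_univ i)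
  obtain ⟨y, hy⟩ : ∃ y : Fin 3 → ℤ_[p], ∀ i, (y i : ℚ_[p]) = x i / x k :=
    ⟨fun i => ⟨x i / x k, hle i⟩, fun _ => rfl⟩
  refine ⟨y, ⟨k, PadicInt.ext (by rw [hy, div_self hk0, PadicInt.coe_one])⟩, ?_⟩
  apply PadicInt.ext
  rw [Fin.sum_univ_three] at h
  simp only [Fin.sum_univ_three, PadicInt.coe_add, PadicInt.coe_mul, PadicInt.coe_intCast,
    PadicInt.coe_pow, PadicInt.coe_zero, hy]
  field_simp
  linear_combination h

theorem fin3_cases : ∀ i k : Fin 3, k = i ∨ k = i + 1 ∨ k = i + 2 := by decide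

/-- **Local insolubility.** -/
theorem no_padic_zero {p : ℕ} [Fact p.Prime] {v : Fin 3 → ℤ} (hv : BadAt p v) {x : Fin 3 → ℚ_[p]}
    (hx : x ≠ 0) : ∑ i, (v i : ℚ_[p]) * x i ^ 2 ≠ 0 := by
  intro h
  obtain ⟨y, ⟨k, hk⟩, hy⟩ := exists_integral_zero hx h
  obtain ⟨i, h1, h2, h3, h4, h5⟩ := hv
  have hsum : (v i : ℤ_[p]) * y i ^ 2 + (v (i + 1) : ℤ_[p]) * y (i + 1) ^ 2 +
      (v (i + 2) : ℤ_[p]) * y (i + 2) ^ 2 = 0 := by
    rw [← hy, Fin.sum_univ_three]
    fin_cases i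
    · rfl
    · show (v 1 : ℤ_[p]) * y 1 ^ 2 + (v 2 : ℤ_[p]) * y 2 ^ 2 + (v 0 : ℤ_[p]) * y 0 ^ 2 = _
      ring
    · show (v 2 : ℤ_[p]) * y 2 ^ 2 + (v 0 : ℤ_[p]) * y 0 ^ 2 + (v 1 : ℤ_[p]) * y 1 ^ 2 = _
      ring
  have hmod := congrArg PadicInt.toZMod hsum
  simp only [map_add, map_mul, map_pow, map_intCast, map_zero] at hmod
  rw [(ZMod.intCast_zmod_eq_zero_iff_dvd (v i) p).mpr h1, zero_mul, zero_add] at hmod
  have hne1 : ((v (i + 1) : ℤ) : ZMod p) ≠ 0 := fun e =>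
    h3 ((ZMod.intCast_zmod_eq_zero_iff_dvd _ p).mp e)
  set Y := PadicInt.toZMod (y (i + 1))
  set Z := PadicInt.toZMod (y (i + 2))
  have hZ : Z = 0 := by
    by_contra hZ
    refine h5 ⟨(v (i + 1) : ZMod p) * Y / Z, ?_⟩
    push_cast
    field_simp
    linear_combination -hmod
  have hY : Y = 0 := by
    rw [hZ] at hmod
    simpa [hne1] using hmod
  have hdvd : ∀ z : ℤ_[p], PadicInt.toZMod z = 0 → (p : ℤ_[p]) ∣ z := fun z hz => by
    rw [← Ideal.mem_span_singleton, ← PadicInt.maximalIdeal_eq_span_p, ← PadicInt.ker_toZMod]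
    exact hz
  obtain ⟨s, hs⟩ := hdvd _ hY
  obtain ⟨t, ht⟩ := hdvd _ hZ
  have hki : k = i := by
    have h1' : ¬(p : ℤ_[p]) ∣ 1 := PadicInt.prime_p.not_dvd_one
    rcases fin3_cases i k with
      e | e | e
    · exact e
    · exact absurd (hk ▸ e ▸ ⟨s, hs⟩) h1'
    · exact absurd (hk ▸ e ▸ ⟨t, ht⟩) h1'
  rw [hki] at hk
  refine h2 ((PadicInt.pow_p_dvd_int_iff 2 (v i)).mp ⟨-((v (i + 1) : ℤ_[p]) * s ^ 2 +
    (v (i + 2) : ℤ_[p]) * t ^ 2), ?_⟩)
  rw [hk, hs, ht] at hsum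
  linear_combination hsum

/-! ## Counting the classes -/

/-- The bad triples of residues modulo `p²`. -/
def badClasses (p : ℕ) : Finset (Fin 3 → ℕ) :=
  (Fintype.piFinset fun _ : Fin 3 => Finset.range (p ^ 2)).filter fun h =>
    BadAt p fun i => (h i : ℤ)

theorem badAt_congr {p : ℕ} {v w : Fin 3 → ℤ} (h : ∀ i, v i ≡ w i [ZMOD (p : ℤ) ^ 2]) :
    BadAt p v ↔ BadAt p w := by
  have key : ∀ v w : Fin 3 → ℤ, (∀ i, v i ≡ w i [ZMOD (p : ℤ) ^ 2]) → BadAt p v → BadAt p w := by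
    rintro v w h ⟨i, h1, h2, h3, h4, h5⟩
    have hp : ∀ j, v j ≡ w j [ZMOD (p : ℤ)] := fun j => (h j).of_dvd (dvd_pow_self _ two_ne_zero)
    have hd : ∀ j, (p : ℤ) ∣ v j ↔ (p : ℤ) ∣ w j := fun j => by
      rw [← Int.modEq_zero_iff_dvd, ← Int.modEq_zero_iff_dvd]
      exact ⟨(hp j).symm.trans, (hp j).trans⟩
    refine ⟨i, (hd i).mp h1, fun e => h2 ?_, fun e => h3 ((hd _).mpr e), fun e => h4 ((hd _).mpr e),
      ?_⟩
    · rw [← Int.modEq_zero_iff_dvd] at e ⊢
      exact (h i).trans e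
    · have e : ∀ j, ((v j : ℤ) : ZMod p) = ((w j : ℤ) : ZMod p) := fun j =>
        (ZMod.intCast_eq_intCast_iff _ _ p).mpr (hp j)
      push_cast at h5 ⊢
      rwa [← e, ← e]
  exact ⟨key v w h, key w v fun i => (h i).symm⟩

/-- The pairs with `-s t` a nonresidue. -/
theorem card_nonresidue_pairs (p : ℕ) [Fact p.Prime] (hp : p ≠ 2) :
    2 * (Finset.univ.filter fun q : ZMod p × ZMod p =>
      q.1 ≠ 0 ∧ q.2 ≠ 0 ∧ ¬IsSquare (-(q.1 * q.2))).card = (p - 1) * (p - 1) := by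
  have hchar : ringChar (ZMod p) ≠ 2 := by rwa [ZMod.ringChar_zmod_n]
  set N := Finset.univ.filter fun t : ZMod p => ¬IsSquare t
  have hN : 2 * N.card = p - 1 := by
    set Q := Finset.univ.filter fun t : ZMod p => t ≠ 0 ∧ IsSquare t
    have hval : ∀ t : ZMod p, quadraticChar (ZMod p) t =
        (if t ∈ Q then 1 else 0) - (if t ∈ N then 1 else 0) := fun t => by
      simp only [Q, N, Finset.mem_filter, Finset.mem_univ, true_and]
      by_cases ht : t = 0
      · simp [ht]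
      by_cases hs : IsSquare t
      · simp [(quadraticChar_one_iff_isSquare ht).mpr hs, ht, hs]
      · simp [quadraticChar_neg_one_iff_not_isSquare.mpr hs, hs]
    have h := quadraticChar_sum_zero hchar
    rw [Finset.sum_congr rfl fun t _ => hval t, Finset.sum_sub_distrib, Finset.sum_boole,
      Finset.sum_boole, sub_eq_zero, Nat.cast_inj, Finset.filter_univ_mem,
      Finset.filter_univ_mem] at h
    have hu : Q ∪ N = Finset.univ.erase 0 := by
      ext t
      by_cases ht : t = 0 <;> simp [Q, N, ht, em]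
    have hc : Q.card + N.card = p - 1 := by
      rw [← Finset.card_union_of_disjoint (Finset.disjoint_filter.mpr fun t _ h1 h2 => h2 h1.2),
        hu, Finset.card_erase_of_mem (Finset.mem_univ _), Finset.card_univ, ZMod.card]
    omega
  have hbij : (Finset.univ.filter fun q : ZMod p × ZMod p =>
      q.1 ≠ 0 ∧ q.2 ≠ 0 ∧ ¬IsSquare (-(q.1 * q.2))).card =
      ((Finset.univ.erase (0 : ZMod p)) ×ˢ N).card := by
    refine Finset.card_nbij' (fun q => (q.1, -(q.1 * q.2))) (fun q => (q.1, -q.2 / q.1))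
      (fun q hq => ?_) (fun q hq => ?_) (fun q hq => ?_) (fun q hq => ?_)
    · obtain ⟨h1, -, h3⟩ := (Finset.mem_filter.mp hq).2
      exact Finset.mem_product.mpr ⟨Finset.mem_erase.mpr ⟨h1, Finset.mem_univ _⟩,
        Finset.mem_filter.mpr ⟨Finset.mem_univ _, h3⟩⟩
    · obtain ⟨h1, h2⟩ := Finset.mem_product.mp hq
      have h1' := Finset.ne_of_mem_erase h1
      have h2' := (Finset.mem_filter.mp h2).2
      refine Finset.mem_filter.mpr ⟨Finset.mem_univ _, h1', fun e => h2' ?_, ?_⟩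
      · rcases div_eq_zero_iff.mp e with e | e
        · rw [neg_eq_zero.mp e]
          exact IsSquare.zero
        · exact absurd e h1'
      · rwa [show -(q.1 * (-q.2 / q.1)) = q.2 by field_simp]
    · obtain ⟨h1, -, -⟩ := (Finset.mem_filter.mp hq).2
      exact Prod.ext rfl (by field_simp)
    · have h1' := Finset.ne_of_mem_erase (Finset.mem_product.mp hq).1
      exact Prod.ext rfl (by field_simp)
  rw [hbij, Finset.card_product, Finset.card_erase_of_mem (Finset.mem_univ _), Finset.card_univ,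
    ZMod.card, ← mul_assoc, mul_comm 2 (p - 1), mul_assoc, hN]

/-- **The number of bad classes.** -/
theorem card_badClasses (p : ℕ) [Fact p.Prime] (hp : p ≠ 2) :
    2 * (badClasses p).card = 3 * (p ^ 2 * (p - 1) ^ 3) := by
  have hpr : p.Prime := Fact.out
  have hp0 := hpr.pos
  set S : Fin 3 → Finset (Fin 3 → ℕ) := fun i => (badClasses p).filter fun h => p ∣ h i
  set A := (Finset.Ico 1 p).image (p * ·)
  set PP := (Finset.range (p ^ 2) ×ˢ Finset.range (p ^ 2)).filter fun q =>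
    ((q.1 : ℕ) : ZMod p) ≠ 0 ∧ ((q.2 : ℕ) : ZMod p) ≠ 0 ∧
      ¬IsSquare (-(((q.1 : ℕ) : ZMod p) * ((q.2 : ℕ) : ZMod p)))
  have hunion : badClasses p = Finset.univ.biUnion S := by
    ext h
    constructor
    · intro hh
      obtain ⟨i, h1, -⟩ := (Finset.mem_filter.mp hh).2
      exact Finset.mem_biUnion.mpr ⟨i, Finset.mem_univ _, Finset.mem_filter.mpr
        ⟨hh, Int.natCast_dvd_natCast.mp h1⟩⟩
    · intro hh
      obtain ⟨i, -, hi⟩ := Finset.mem_biUnion.mp hh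
      exact (Finset.mem_filter.mp hi).1
  have hone : ∀ h ∈ badClasses p, ∀ i, p ∣ h i →
      ¬p ^ 2 ∣ h i ∧ ¬p ∣ h (i + 1) ∧ ¬p ∣ h (i + 2) ∧
        ¬IsSquare (-(((h (i + 1)) : ZMod p) * ((h (i + 2)) : ZMod p))) := fun h hh i hi => by
    obtain ⟨i', h1, h2, h3, h4, h5⟩ := (Finset.mem_filter.mp hh).2
    rw [Int.natCast_dvd_natCast] at h1 h3 h4
    rw [← Nat.cast_pow, Int.natCast_dvd_natCast] at h2
    obtain rfl : i = i' := by
      rcases fin3_cases i' i with
        e | e | e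
      · exact e
      · exact absurd (e ▸ hi) h3
      · exact absurd (e ▸ hi) h4
    refine ⟨h2, h3, h4, ?_⟩
    push_cast at h5
    exact h5
  have hdisj : (↑(Finset.univ : Finset (Fin 3)) : Set (Fin 3)).PairwiseDisjoint S := by
    intro i _ j _ hij
    refine Finset.disjoint_left.mpr fun h hi hj => hij ?_
    obtain ⟨hh, hi⟩ := Finset.mem_filter.mp hi
    obtain ⟨-, hj⟩ := Finset.mem_filter.mp hj
    obtain ⟨-, h3, h4, -⟩ := hone h hh i hi
    rcases fin3_cases i j with e | e | e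
    · exact e.symm
    · exact absurd (e ▸ hj) h3
    · exact absurd (e ▸ hj) h4
  have hmult : ∀ n < p ^ 2, p ∣ n → ¬p ^ 2 ∣ n → n ∈ A := fun n hn hd hd2 => by
    obtain ⟨k, rfl⟩ := hd
    refine Finset.mem_image.mpr ⟨k, Finset.mem_Ico.mpr ⟨?_, ?_⟩, rfl⟩
    · rcases Nat.eq_zero_or_pos k with rfl | hk
      · exact absurd (by simp) hd2
      · exact hk
    · exact lt_of_mul_lt_mul_left (by rwa [sq] at hn) (Nat.zero_le p)
  have hA : ∀ n ∈ A, n < p ^ 2 ∧ p ∣ n ∧ ¬p ^ 2 ∣ n := fun n hn => by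
    obtain ⟨k, hk, rfl⟩ := Finset.mem_image.mp hn
    obtain ⟨hk1, hk2⟩ := Finset.mem_Ico.mp hk
    refine ⟨by rw [sq]; exact Nat.mul_lt_mul_of_pos_left hk2 hp0, dvd_mul_right p k, fun hd => ?_⟩
    rw [sq] at hd
    have := Nat.le_of_dvd hk1 (Nat.dvd_of_mul_dvd_mul_left hp0 hd)
    omega
  have hcardS : ∀ i, (S i).card = A.card * PP.card := fun i => by
    rw [← Finset.card_product]
    refine Finset.card_nbij' (fun h => (h i, h (i + 1), h (i + 2)))
      (fun q j => if j = i then q.1 else if j = i + 1 then q.2.1 else q.2.2)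
      (fun h hh => ?_) (fun q hq => ?_) (fun h _ => ?_) (fun q _ => ?_)
    · obtain ⟨hb, hi⟩ := Finset.mem_filter.mp hh
      obtain ⟨h2, h3, h4, h5⟩ := hone h hb i hi
      have hlt := fun j => Finset.mem_range.mp
        (Fintype.mem_piFinset.mp (Finset.mem_filter.mp hb).1 j)
      refine Finset.mem_product.mpr ⟨hmult _ (hlt i) hi h2, Finset.mem_filter.mpr
        ⟨Finset.mem_product.mpr ⟨Finset.mem_range.mpr (hlt _), Finset.mem_range.mpr (hlt _)⟩,
          ?_, ?_, h5⟩⟩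
      · rwa [Ne, ZMod.natCast_eq_zero_iff]
      · rwa [Ne, ZMod.natCast_eq_zero_iff]
    · obtain ⟨hq1, hq2⟩ := Finset.mem_product.mp hq
      obtain ⟨hlt, hd, hd2⟩ := hA _ hq1
      obtain ⟨hq2, hn1, hn2, hn3⟩ := Finset.mem_filter.mp hq2
      obtain ⟨hr1, hr2⟩ := Finset.mem_product.mp hq2
      rw [Ne, ZMod.natCast_eq_zero_iff] at hn1 hn2
      have e0 : ∀ j : Fin 3, i + 1 ≠ i ∧ i + 2 ≠ i ∧ i + 2 ≠ i + 1 := by
        intro; revert i; decide
      obtain ⟨e1, e2, e3⟩ := e0 0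
      refine Finset.mem_filter.mpr ⟨Finset.mem_filter.mpr ⟨Fintype.mem_piFinset.mpr fun j => ?_,
        i, ?_, ?_, ?_, ?_, ?_⟩, ?_⟩
      · dsimp only
        split_ifs
        exacts [Finset.mem_range.mpr hlt, hr1, hr2]
      · simpa [Int.natCast_dvd_natCast] using hd
      · rw [← Nat.cast_pow, Int.natCast_dvd_natCast]
        simpa using hd2
      · simpa [Int.natCast_dvd_natCast, e1] using hn1
      · simpa [Int.natCast_dvd_natCast, e2, e3] using hn2
      · simpa [e1, e2, e3] using hn3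
      · simpa using hd
    · funext j
      dsimp only
      split_ifs with e e'
      · rw [e]
      · rw [e']
      · rw [(fin3_cases i j).resolve_left
          e |>.resolve_left e']
    · have e0 : ∀ k : Fin 3, k + 1 ≠ k ∧ k + 2 ≠ k ∧ k + 2 ≠ k + 1 := by decide
      obtain ⟨e1, e2, e3⟩ := e0 i
      simp [e1, e2, e3]
  have hAcard : A.card = p - 1 := by
    rw [Finset.card_image_of_injective _ (fun a b h => Nat.eq_of_mul_eq_mul_left hp0 h),
      Nat.card_Ico]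
  have hPP : PP.card = p * p * (Finset.univ.filter fun q : ZMod p × ZMod p =>
      q.1 ≠ 0 ∧ q.2 ≠ 0 ∧ ¬IsSquare (-(q.1 * q.2))).card := by
    have hd : ∀ n, n < p ^ 2 → n / p < p := fun n hn => by
      rw [Nat.div_lt_iff_lt_mul hp0, ← sq]
      exact hn
    rw [show p * p = (Finset.range p ×ˢ Finset.range p).card by simp, ← Finset.card_product]
    refine Finset.card_nbij' (fun q => ((q.1 / p, q.2 / p), ((q.1 : ZMod p), (q.2 : ZMod p))))
      (fun q => (p * q.1.1 + q.2.1.val, p * q.1.2 + q.2.2.val))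
      (fun q hq => ?_) (fun q hq => ?_) (fun q _ => ?_) (fun q _ => ?_)
    · obtain ⟨hq, hc⟩ := Finset.mem_filter.mp hq
      obtain ⟨h1, h2⟩ := Finset.mem_product.mp hq
      exact Finset.mem_product.mpr ⟨Finset.mem_product.mpr
        ⟨Finset.mem_range.mpr (hd _ (Finset.mem_range.mp h1)),
          Finset.mem_range.mpr (hd _ (Finset.mem_range.mp h2))⟩,
        Finset.mem_filter.mpr ⟨Finset.mem_univ _, hc⟩⟩
    · obtain ⟨h1, h2⟩ := Finset.mem_product.mp hq
      obtain ⟨h1, h1'⟩ := Finset.mem_product.mp h1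
      have hlt : ∀ a (z : ZMod p), a ∈ Finset.range p → p * a + z.val ∈ Finset.range (p ^ 2) :=
        fun a z ha => Finset.mem_range.mpr (by
          have hz := ZMod.val_lt z
          calc p * a + z.val < p * a + p := Nat.add_lt_add_left hz _
            _ = p * (a + 1) := (Nat.mul_succ p a).symm
            _ ≤ p * p := Nat.mul_le_mul_left p (Finset.mem_range.mp ha)
            _ = p ^ 2 := (sq p).symm)
      refine Finset.mem_filter.mpr ⟨Finset.mem_product.mpr ⟨hlt _ _ h1, hlt _ _ h1'⟩, ?_⟩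
      simpa using (Finset.mem_filter.mp h2).2
    · simp [ZMod.val_natCast, Nat.div_add_mod]
    · have hz1 := ZMod.val_lt q.2.1
      have hz2 := ZMod.val_lt q.2.2
      simp [Nat.mul_add_div hp0, Nat.div_eq_of_lt hz1, Nat.div_eq_of_lt hz2]
  rw [hunion, Finset.card_biUnion hdisj, Finset.sum_congr rfl fun i _ => hcardS i,
    Finset.sum_const, Finset.card_univ, Fintype.card_fin, smul_eq_mul, hAcard, hPP]
  have h := card_nonresidue_pairs p hp
  rw [← mul_assoc, mul_comm 2 3, mul_assoc, pow_succ (p - 1) 2]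
  congr 1
  rw [show ∀ a b c : ℕ, 2 * (a * (b * c)) = a * b * (2 * c) from fun a b c => by ring, h]
  ring

end FA.ConicCount
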