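import Fermat.Agent.ConicCount.Sieve

/-!
# The counts

A triple with a zero in every `ℚ_[p]`, in particular one with a rational zero, avoids every bad
class.
-/

set_option autoImplicit false
set_option linter.style.haveILetI false

noncomputable section

open Filter
open scoped Classical Topology

namespace FA.ConicCount

/-- Nonzero triples of the box with a zero in every `ℚ_[p]`. -/
def localTriples (B : ℕ) : Set (Fin 3 → ℤ) :=
  {v | (∀ i, v i ≠ 0 ∧ |v i| ≤ (B : ℤ)) ∧ ∀ (p : ℕ) [Fact p.Prime],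
    ∃ x : Fin 3 → ℚ_[p], x ≠ 0 ∧ ∑ i, (v i : ℚ_[p]) * x i ^ 2 = 0}

/-- Nonzero triples of the box with a rational zero. -/
def globalTriples (B : ℕ) : Set (Fin 3 → ℤ) :=
  {v | (∀ i, v i ≠ 0 ∧ |v i| ≤ (B : ℤ)) ∧
    ∃ x : Fin 3 → ℚ, x ≠ 0 ∧ ∑ i, (v i : ℚ) * x i ^ 2 = 0}

theorem mem_tripleBox {B : ℕ} {v : Fin 3 → ℤ} : v ∈ tripleBox B ↔ ∀ i, |v i| ≤ (B : ℤ) := by
  rw [tripleBox, Fintype.mem_piFinset]
  exact forall_congr' fun i => by rw [Finset.mem_Icc, abs_le]

theorem finite_localTriples (B : ℕ) : (localTriples B).Finite :=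
  (tripleBox B).finite_toSet.subset fun _ h => mem_tripleBox.mpr fun i => (h.1 i).2

theorem globalTriples_subset (B : ℕ) : globalTriples B ⊆ localTriples B := by
  rintro v ⟨hv, x, hx, he⟩
  refine ⟨hv, fun p hp => ⟨fun i => (x i : ℚ_[p]), fun h0 => hx (funext fun i => ?_), ?_⟩⟩
  · simpa using congrFun h0 i
  · have h := congrArg (fun q : ℚ => (q : ℚ_[p])) he
    push_cast [Fin.sum_univ_three] at h ⊢
    exact h

/-- **The bound.** -/
theorem exists_localTriples_bound : ∃ C : ℝ, ∀ᶠ B : ℕ in atTop,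
    ((localTriples B).ncard : ℝ) ≤ C * (B : ℝ) ^ 3 / Real.log B ^ (3 / 2 : ℝ) := by
  obtain ⟨C, hC⟩ := exists_sifted_bound
  refine ⟨C, hC.mono fun B hB => ?_⟩
  rw [Set.ncard_eq_toFinset_card _ (finite_localTriples B)]
  refine hB _ (fun v hv => mem_tripleBox.mpr fun i =>
    (((finite_localTriples B).mem_toFinset.mp hv).1 i).2) fun v hv p hp _ hbad => ?_
  haveI : Fact p.Prime := ⟨hp⟩
  obtain ⟨x, hx, he⟩ := ((finite_localTriples B).mem_toFinset.mp hv).2 p
  exact no_padic_zero hbad hx he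

/-- **Serre's bound.** -/
theorem exists_globalTriples_bound : ∃ C : ℝ, ∀ᶠ B : ℕ in atTop,
    ((globalTriples B).ncard : ℝ) ≤ C * (B : ℝ) ^ 3 / Real.log B ^ (3 / 2 : ℝ) := by
  obtain ⟨C, hC⟩ := exists_localTriples_bound
  exact ⟨C, hC.mono fun B hB => le_trans (Nat.cast_le.mpr
    (Set.ncard_le_ncard (globalTriples_subset B) (finite_localTriples B))) hB⟩

/-- A set below the bound has density zero. -/
theorem tendsto_density_of_bound {f : ℕ → ℕ}
    (h : ∃ C : ℝ, ∀ᶠ B : ℕ in atTop, (f B : ℝ) ≤ C * (B : ℝ) ^ 3 / Real.log B ^ (3 / 2 : ℝ)) :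
    Tendsto (fun B : ℕ => (f B : ℝ) / (2 * (B : ℝ)) ^ 3) atTop (𝓝 0) := by
  obtain ⟨C, hC⟩ := h
  have hlim : Tendsto (fun B : ℕ => C / 8 / Real.log B ^ (3 / 2 : ℝ)) atTop (𝓝 0) :=
    ((tendsto_rpow_atTop (by norm_num)).comp
      (Real.tendsto_log_atTop.comp tendsto_natCast_atTop_atTop)).const_div_atTop _
  refine squeeze_zero' (Eventually.of_forall fun B => by positivity) ?_ hlim
  filter_upwards [hC, eventually_ge_atTop 2] with B hB h2
  have hB0 : (0 : ℝ) < B := Nat.cast_pos.mpr (by omega)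
  have hl : 0 < Real.log B ^ (3 / 2 : ℝ) :=
    Real.rpow_pos_of_pos (Real.log_pos (by exact_mod_cast h2)) _
  rw [div_le_iff₀ (by positivity)]
  refine hB.trans_eq ?_
  field_simp
  ring

end FA.ConicCount
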