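import Fermat.Agent.CombinatorialSieve.Integers
import Fermat.Agent.ConicCount.Local
import Mathlib.Analysis.PSeries
import Mathlib.Analysis.SpecialFunctions.Pow.Real

/-!
# The sieve

The triples of a box are weighed on the product of their bad odd primes `< Z`; the bad classes
modulo `d²` multiply by the Chinese remainder theorem, so the fundamental lemma in dimension `3/2`
leaves `≪ B³ / (log B)^(3/2)` triples.
-/

set_option autoImplicit false
set_option linter.style.haveILetI false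

noncomputable section

open Finset Filter FA.CombinatorialSieve
open scoped Classical

namespace FA.ConicCount

/-- The box `[-B, B]³`. -/
def tripleBox (B : ℕ) : Finset (Fin 3 → ℤ) :=
  Fintype.piFinset fun _ => Finset.Icc (-(B : ℤ)) B

/-- The classes modulo `d²` bad at every prime of `d`. -/
def badModulo (d : ℕ) : Finset (Fin 3 → ℕ) :=
  (Fintype.piFinset fun _ : Fin 3 => range (d ^ 2)).filter fun h =>
    ∀ p ∈ d.primeFactors, BadAt p fun i => (h i : ℤ)

theorem badModulo_one : (badModulo 1).card = 1 := by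
  rw [badModulo, filter_true_of_mem (by simp)]
  simp

theorem badModulo_prime {p : ℕ} (hp : p.Prime) : badModulo p = badClasses p := by
  rw [badModulo, badClasses, hp.primeFactors]
  simp

/-- **The Chinese remainder theorem.** -/
theorem card_badModulo_mul {m n : ℕ} (hm : 0 < m) (hn : 0 < n) (hc : m.Coprime n) :
    (badModulo (m * n)).card = (badModulo m).card * (badModulo n).card := by
  have hc2 : (m ^ 2).Coprime (n ^ 2) := hc.pow 2 2
  have hm2 : 0 < m ^ 2 := pow_pos hm 2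
  have hn2 : 0 < n ^ 2 := pow_pos hn 2
  have hsplit : ∀ {k : ℕ} (h : Fin 3 → ℕ) (u : Fin 3 → ℕ) {p : ℕ}, p ∈ k.primeFactors →
      (∀ i, h i ≡ u i [MOD k ^ 2]) →
      (BadAt p (fun i => (h i : ℤ)) ↔ BadAt p fun i => (u i : ℤ)) := fun h u p hp hhu =>
    badAt_congr fun i => by
      rw [← Nat.cast_pow, Int.natCast_modEq_iff]
      exact (hhu i).of_dvd (pow_dvd_pow_of_dvd (Nat.dvd_of_mem_primeFactors hp) 2)
  rw [← card_product]
  refine card_nbij' (fun h => (fun i => h i % m ^ 2, fun i => h i % n ^ 2))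
    (fun q i => Nat.chineseRemainder hc2 (q.1 i) (q.2 i))
    (fun h hh => ?_) (fun q hq => ?_) (fun h hh => ?_) (fun q hq => ?_)
  · obtain ⟨-, hb⟩ := mem_filter.mp hh
    rw [hc.primeFactors_mul] at hb
    refine mem_product.mpr ⟨mem_filter.mpr ⟨Fintype.mem_piFinset.mpr fun i =>
      mem_range.mpr (Nat.mod_lt _ hm2), fun p hp => ?_⟩, mem_filter.mpr
      ⟨Fintype.mem_piFinset.mpr fun i => mem_range.mpr (Nat.mod_lt _ hn2), fun p hp => ?_⟩⟩
    · exact (hsplit _ h hp fun i => Nat.mod_modEq _ _).mpr (hb p (mem_union_left _ hp))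
    · exact (hsplit _ h hp fun i => Nat.mod_modEq _ _).mpr (hb p (mem_union_right _ hp))
  · obtain ⟨h1, h2⟩ := mem_product.mp hq
    refine mem_filter.mpr ⟨Fintype.mem_piFinset.mpr fun i => mem_range.mpr ?_, fun p hp => ?_⟩
    · rw [mul_pow]
      exact Nat.chineseRemainder_lt_mul hc2 _ _ hm2.ne' hn2.ne'
    · rw [hc.primeFactors_mul, mem_union] at hp
      rcases hp with hp | hp
      · exact (hsplit _ q.1 hp fun i => (Nat.chineseRemainder hc2 _ _).2.1).mpr
          ((mem_filter.mp h1).2 p hp)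
      · exact (hsplit _ q.2 hp fun i => (Nat.chineseRemainder hc2 _ _).2.2).mpr
          ((mem_filter.mp h2).2 p hp)
  · have hlt := fun i => mem_range.mp (Fintype.mem_piFinset.mp (mem_filter.mp hh).1 i)
    funext i
    have hu := Nat.chineseRemainder_modEq_unique hc2 (a := h i % m ^ 2) (b := h i % n ^ 2)
      (z := h i)
      (Nat.mod_modEq _ _).symm (Nat.mod_modEq _ _).symm
    have h1 := Nat.chineseRemainder_lt_mul hc2 (h i % m ^ 2) (h i % n ^ 2) hm2.ne' hn2.ne'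
    have h2 := hlt i
    rw [mul_pow] at h2
    exact (Nat.ModEq.eq_of_lt_of_lt hu h2 h1).symm
  · obtain ⟨h1, h2⟩ := mem_product.mp hq
    refine Prod.ext (funext fun i => ?_) (funext fun i => ?_)
    · exact Eq.trans (Nat.chineseRemainder hc2 (q.1 i) (q.2 i)).2.1 (Nat.mod_eq_of_lt
        (mem_range.mp (Fintype.mem_piFinset.mp (mem_filter.mp h1).1 i)))
    · exact Eq.trans (Nat.chineseRemainder hc2 (q.1 i) (q.2 i)).2.2 (Nat.mod_eq_of_lt
        (mem_range.mp (Fintype.mem_piFinset.mp (mem_filter.mp h2).1 i)))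

/-- The proportion at a prime. -/
def badShare (p : ℕ) : ℝ := if p = 2 then 1 / 4 else 3 * ((p : ℝ) - 1) ^ 3 / (2 * (p : ℝ) ^ 4)

theorem badShare_eq {p : ℕ} (hp : p.Prime) (h2 : p ≠ 2) :
    ((badModulo p).card : ℝ) = badShare p * (p : ℝ) ^ 6 := by
  haveI : Fact p.Prime := ⟨hp⟩
  have h : ((2 * (badClasses p).card : ℕ) : ℝ) = ((3 * (p ^ 2 * (p - 1) ^ 3) : ℕ) : ℝ) :=
    congrArg Nat.cast (card_badClasses p h2)
  push_cast [Nat.cast_sub hp.one_le] at h
  have hp0 : (p : ℝ) ≠ 0 := Nat.cast_ne_zero.mpr hp.ne_zero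
  rw [badModulo_prime hp, badShare, if_neg h2]
  field_simp
  linear_combination h

/-- Odd squarefree `d`: the classes bad at all primes of `d`. -/
theorem card_badModulo_eq {d : ℕ} (hd : Squarefree d) (h2 : ¬2 ∣ d) :
    ((badModulo d).card : ℝ) = (∏ p ∈ d.primeFactors, badShare p) * (d : ℝ) ^ 6 := by
  induction d using Nat.recOnPosPrimePosCoprime with
  | zero => exact absurd hd not_squarefree_zero
  | one => simp [badModulo_one]
  | prime_pow p n hp hn =>
    obtain rfl : n = 1 := ((Nat.squarefree_pow_iff hp.ne_one hn.ne').mp hd).2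
    rw [pow_one] at h2 ⊢
    rw [hp.primeFactors, prod_singleton, badShare_eq hp fun e => h2 (e ▸ dvd_rfl)]
  | coprime a b ha hb hab iha ihb =>
    rw [card_badModulo_mul (by omega) (by omega) hab, Nat.cast_mul,
      iha hd.of_mul_left fun h => h2 (h.mul_right b),
      ihb hd.of_mul_right fun h => h2 (h.mul_left a),
      hab.primeFactors_mul, prod_union hab.disjoint_primeFactors, Nat.cast_mul]
    ring

theorem badShare_bounds {p : ℕ} (hp : 2 ≤ p) : 0 < badShare p ∧ badShare p < 1 := by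
  rw [badShare]
  split_ifs with h
  · norm_num
  have h3 : (3 : ℝ) ≤ p := by exact_mod_cast (show 3 ≤ p by omega)
  refine ⟨div_pos (mul_pos (by norm_num) (pow_pos (by linarith) 3)) (by positivity), ?_⟩
  rw [div_lt_one (by positivity)]
  nlinarith [pow_le_pow_left₀ (show (0 : ℝ) ≤ p - 1 by linarith)
      (show (p : ℝ) - 1 ≤ p by linarith) 3,
    pow_pos (show (0 : ℝ) < p by linarith) 3]

theorem badShare_le {p : ℕ} (hp : 3 ≤ p) :
    badShare p ≤ 3 / (2 * (p : ℝ)) ∧ 3 / (2 * (p : ℝ)) - 5 / (p : ℝ) ^ 2 ≤ badShare p ∧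
      badShare p / (1 - badShare p) ≤ 3 / 2 / (p : ℝ) + 5 / (p : ℝ) ^ 2 := by
  have h3 : (3 : ℝ) ≤ p := by exact_mod_cast hp
  have hs : badShare p = 3 * ((p : ℝ) - 1) ^ 3 / (2 * (p : ℝ) ^ 4) := by
    rw [badShare, if_neg (by omega)]
  have h1 : badShare p ≤ 3 / (2 * (p : ℝ)) := by
    rw [hs, div_le_div_iff₀ (by positivity) (by positivity)]
    have := pow_le_pow_left₀ (show (0 : ℝ) ≤ p - 1 by linarith) (show (p : ℝ) - 1 ≤ p by linarith) 3
    nlinarith [mul_le_mul_of_nonneg_right this (show (0 : ℝ) ≤ p by linarith)]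
  refine ⟨h1, ?_, ?_⟩
  · rw [hs, div_sub_div _ _ (by positivity) (by positivity),
      div_le_div_iff₀ (by positivity) (by positivity)]
    nlinarith [pow_nonneg (show (0 : ℝ) ≤ p by linarith) 5,
      pow_nonneg (show (0 : ℝ) ≤ p by linarith) 4, pow_nonneg (show (0 : ℝ) ≤ p by linarith) 3]
  · have hle : 3 / (2 * (p : ℝ)) ≤ 1 / 2 := by
      rw [div_le_div_iff₀ (by positivity) (by positivity)]
      linarith
    calc badShare p / (1 - badShare p) ≤ 3 / (2 * (p : ℝ)) / (1 - 3 / (2 * (p : ℝ))) :=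
          div_le_div₀ (by positivity) h1 (by linarith) (by linarith)
      _ ≤ 3 / 2 / (p : ℝ) + 5 / (p : ℝ) ^ 2 := by
          rw [show 3 / 2 / (p : ℝ) + 5 / (p : ℝ) ^ 2 = (3 * (p : ℝ) + 10) / (2 * (p : ℝ) ^ 2) by
              field_simp; ring,
            show 3 / (2 * (p : ℝ)) / (1 - 3 / (2 * (p : ℝ))) = 3 / (2 * (p : ℝ) - 3) by
              field_simp,
            div_le_div_iff₀ (by linarith) (by positivity)]
          nlinarith

/-- The multiplicative share. -/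
def shareNu : ArithmeticFunction ℝ := ArithmeticFunction.prodPrimeFactors badShare

theorem shareNu_prime {p : ℕ} (hp : p.Prime) : shareNu p = badShare p := by
  rw [shareNu, ArithmeticFunction.prodPrimeFactors_apply hp.ne_zero, hp.primeFactors,
    prod_singleton]

/-- The bad odd primes below `Z`. -/
def badProduct (Z : ℝ) (v : Fin 3 → ℤ) : ℕ :=
  ∏ p ∈ (sievingPrimes Z 2).filter (fun p => BadAt p v), p

/-- The sieve. -/
def conicSieve (B : ℕ) (Z : ℝ) : BoundingSieve where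
  support := (tripleBox B).image (badProduct Z)
  prodPrimes := sievingProd Z 2
  prodPrimes_squarefree := squarefree_sievingProd Z 2
  weights n := ((tripleBox B).filter fun v => badProduct Z v = n).card
  weights_nonneg _ := Nat.cast_nonneg _
  totalMass := ((2 * B + 1 : ℕ) : ℝ) ^ 3
  nu := shareNu
  nu_mult := ArithmeticFunction.IsMultiplicative.prodPrimeFactors _
  nu_pos_of_prime _ hp _ := shareNu_prime hp ▸ (badShare_bounds hp.two_le).1
  nu_lt_one_of_prime _ hp _ := shareNu_prime hp ▸ (badShare_bounds hp.two_le).2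

theorem sum_image_card {P : Finset (Fin 3 → ℤ)} (f : (Fin 3 → ℤ) → ℕ) (Q : ℕ → Prop)
    [DecidablePred Q] :
    ∑ n ∈ P.image f, (if Q n then (((P.filter fun v => f v = n).card : ℕ) : ℝ) else 0) =
      ((P.filter fun v => Q (f v)).card : ℝ) := by
  rw [← sum_filter, ← Nat.cast_sum, sum_card_fiberwise_eq_card_filter]
  refine congrArg (fun s : Finset (Fin 3 → ℤ) => (s.card : ℝ)) (filter_congr fun v hv => ?_)
  rw [mem_filter]
  exact and_iff_right (mem_image_of_mem f hv)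

theorem prime_dvd_badProduct {Z : ℝ} {v : Fin 3 → ℤ} {p : ℕ} (hp : p.Prime) :
    p ∣ badProduct Z v ↔ p ∈ sievingPrimes Z 2 ∧ BadAt p v := by
  rw [badProduct, Prime.dvd_finsetProd_iff hp.prime]
  constructor
  · rintro ⟨q, hq, hd⟩
    rw [(Nat.prime_dvd_prime_iff_eq hp (prime_of_mem_sievingPrimes (mem_filter.mp hq).1)).mp hd]
    exact mem_filter.mp hq
  · exact fun h => ⟨p, mem_filter.mpr h, dvd_rfl⟩

theorem conicSieve_siftedSum (B : ℕ) (Z : ℝ) :
    (conicSieve B Z).siftedSum =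
      (((tripleBox B).filter fun v => ∀ p ∈ sievingPrimes Z 2, ¬BadAt p v).card : ℝ) := by
  rw [BoundingSieve.siftedSum]
  refine (sum_image_card _ fun n => (sievingProd Z 2).Coprime n).trans ?_
  refine congrArg (fun s : Finset (Fin 3 → ℤ) => (s.card : ℝ)) (filter_congr fun v _ => ?_)
  refine ⟨fun h p hp hb => ?_, fun h => ?_⟩
  · have hp' := prime_of_mem_sievingPrimes hp
    exact hp'.not_dvd_one (h ▸ Nat.dvd_gcd (dvd_prod_of_mem _ hp)
      ((prime_dvd_badProduct hp').mpr ⟨hp, hb⟩))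
  · refine Nat.coprime_of_dvd fun p hp _ hd => ?_
    exact h p ((prime_dvd_badProduct hp).mp hd).1 ((prime_dvd_badProduct hp).mp hd).2

/-- An interval meets a class about `L / m` times. -/
theorem card_class_bound {B m h : ℕ} (hm : 0 < m) (hh : h < m) :
    |(((Icc (-(B : ℤ)) B).filter fun x => x % (m : ℤ) = h).card : ℝ) -
      ((2 * B + 1 : ℕ) : ℝ) / m| ≤ 1 := by
  have hm' : (0 : ℤ) < m := by exact_mod_cast hm
  have hfil : (Icc (-(B : ℤ)) B).filter (fun x => x % (m : ℤ) = h) =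
      (Ico (-(B : ℤ)) (B + 1)).filter fun x => x ≡ (h : ℤ) [ZMOD (m : ℤ)] := by
    ext x
    simp only [mem_filter, mem_Icc, mem_Ico, Int.lt_add_one_iff, Int.ModEq,
      Int.emod_eq_of_lt (Int.natCast_nonneg h) (by exact_mod_cast hh : (h : ℤ) < m)]
  have hcard := Int.Ico_filter_modEq_card (-(B : ℤ)) (B + 1) hm' (h : ℤ)
  rw [← hfil] at hcard
  set N := ((Icc (-(B : ℤ)) B).filter fun x => x % (m : ℤ) = h).card
  set a₁ : ℚ := ((((B : ℤ) + 1 : ℤ) : ℚ) - ((h : ℤ) : ℚ)) / ((m : ℤ) : ℚ)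
  set a₂ : ℚ := (((-(B : ℤ) : ℤ) : ℚ) - ((h : ℤ) : ℚ)) / ((m : ℤ) : ℚ)
  set c₁ := ⌈a₁⌉
  set c₂ := ⌈a₂⌉
  have h1 : a₁ ≤ c₁ := Int.le_ceil a₁
  have h2 : (c₁ : ℚ) < a₁ + 1 := Int.ceil_lt_add_one a₁
  have h3 : a₂ ≤ c₂ := Int.le_ceil a₂
  have h4 : (c₂ : ℚ) < a₂ + 1 := Int.ceil_lt_add_one a₂
  have hsub : a₁ - a₂ = ((2 * B + 1 : ℕ) : ℚ) / (m : ℚ) := by
    simp only [a₁, a₂]
    push_cast
    ring
  have hLm : (0 : ℚ) < ((2 * B + 1 : ℕ) : ℚ) / (m : ℚ) :=
    div_pos (Nat.cast_pos.mpr (by omega)) (Nat.cast_pos.mpr hm)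
  have hlt : ((c₂ : ℤ) : ℚ) < (c₁ : ℚ) + 1 := by linarith
  have hge : c₂ ≤ c₁ := by
    have : c₂ < c₁ + 1 := by exact_mod_cast hlt
    omega
  rw [max_eq_left (by omega)] at hcard
  have hq : ((N : ℕ) : ℚ) = (c₁ : ℚ) - (c₂ : ℚ) := by
    rw [← Int.cast_sub, ← hcard, Int.cast_natCast]
  have hlo : ((2 * B + 1 : ℕ) : ℚ) / (m : ℚ) - 1 ≤ (N : ℚ) := by linarith
  have hhi : (N : ℚ) ≤ ((2 * B + 1 : ℕ) : ℚ) / (m : ℚ) + 1 := by linarith
  have hlo' := (Rat.cast_le (K := ℝ)).mpr hlo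
  have hhi' := (Rat.cast_le (K := ℝ)).mpr hhi
  push_cast at hlo' hhi' ⊢
  rw [abs_le]
  constructor <;> linarith

/-- The remainder at `d`. -/
theorem conicSieve_rem (B : ℕ) {Z : ℝ} {d : ℕ} (hd : d ∣ sievingProd Z 2) :
    |(conicSieve B Z).rem d| ≤ (d : ℝ) ^ 6 * (28 * ((2 * B + 1 : ℕ) : ℝ) ^ 2) := by
  have hsq : Squarefree d := (squarefree_sievingProd Z 2).squarefree_of_dvd hd
  have hmem : ∀ p ∈ d.primeFactors, p ∈ sievingPrimes Z 2 := fun p hp => by
    rw [← primeFactors_sievingProd]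
    exact Nat.primeFactors_mono hd (squarefree_sievingProd Z 2).ne_zero hp
  have h2 : ¬2 ∣ d := fun h => (mem_sievingPrimes.mp (hmem 2 (Nat.mem_primeFactors.mpr
    ⟨Nat.prime_two, h, hsq.ne_zero⟩))).2.2 dvd_rfl
  have hd0 : 0 < d ^ 2 := pow_pos (Nat.pos_of_ne_zero hsq.ne_zero) 2
  set L : ℝ := ((2 * B + 1 : ℕ) : ℝ) with hL
  have hL1 : (1 : ℝ) ≤ L := by
    rw [hL]; exact_mod_cast (show 1 ≤ 2 * B + 1 by omega)
  set q : ℝ := L / ((d ^ 2 : ℕ) : ℝ) with hq
  have hq0 : 0 ≤ q := by positivity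
  have hqL : q + 1 ≤ 2 * L := by
    have : q ≤ L := div_le_self (by linarith) (by exact_mod_cast hd0)
    linarith
  set cls : (Fin 3 → ℕ) → Finset (Fin 3 → ℤ) := fun h =>
    Fintype.piFinset fun i => (Icc (-(B : ℤ)) B).filter fun x => x % ((d ^ 2 : ℕ) : ℤ) = h i
  have hcls : ∀ h ∈ badModulo d, |((cls h).card : ℝ) - q ^ 3| ≤ 28 * L ^ 2 := fun h hh => by
    have hlt := fun i => mem_range.mp (Fintype.mem_piFinset.mp (mem_filter.mp hh).1 i)
    simp only [cls, Fintype.card_piFinset, Fin.prod_univ_three, Nat.cast_mul]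
    have b : ∀ i, |(((Icc (-(B : ℤ)) B).filter fun x => x % ((d ^ 2 : ℕ) : ℤ) = h i).card : ℝ) -
        q| ≤ 1 := fun i => card_class_bound hd0 (hlt i)
    set n₀ : ℝ := (((Icc (-(B : ℤ)) B).filter fun x => x % ((d ^ 2 : ℕ) : ℤ) = h 0).card : ℝ)
    set n₁ : ℝ := (((Icc (-(B : ℤ)) B).filter fun x => x % ((d ^ 2 : ℕ) : ℤ) = h 1).card : ℝ)
    set n₂ : ℝ := (((Icc (-(B : ℤ)) B).filter fun x => x % ((d ^ 2 : ℕ) : ℤ) = h 2).card : ℝ)
    have hn : ∀ x : ℝ, |x - q| ≤ 1 → |x| ≤ q + 1 := fun x hx => by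
      rw [abs_le] at hx ⊢
      constructor <;> linarith
    rw [show n₀ * n₁ * n₂ - q ^ 3 =
      (n₀ - q) * n₁ * n₂ + q * (n₁ - q) * n₂ + q * q * (n₂ - q) by ring]
    refine (abs_add_three _ _ _).trans ?_
    rw [abs_mul, abs_mul, abs_mul, abs_mul, abs_mul, abs_mul, abs_of_nonneg hq0]
    have e1 : |n₀ - q| * |n₁| * |n₂| ≤ 1 * (q + 1) * (q + 1) :=
      mul_le_mul (mul_le_mul (b 0) (hn _ (b 1)) (abs_nonneg _) zero_le_one) (hn _ (b 2))
        (abs_nonneg _) (by positivity)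
    have e2 : q * |n₁ - q| * |n₂| ≤ q * 1 * (q + 1) :=
      mul_le_mul (mul_le_mul_of_nonneg_left (b 1) hq0) (hn _ (b 2)) (abs_nonneg _) (by positivity)
    have e3 : q * q * |n₂ - q| ≤ q * q * 1 := mul_le_mul_of_nonneg_left (b 2) (by positivity)
    nlinarith
  have hmult : (conicSieve B Z).multSum d = ∑ h ∈ badModulo d, ((cls h).card : ℝ) := by
    rw [BoundingSieve.multSum]
    refine (sum_image_card (P := tripleBox B) (badProduct Z) fun n => d ∣ n).trans ?_
    rw [← Nat.cast_sum, ← card_biUnion]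
    · refine congrArg (fun s : Finset (Fin 3 → ℤ) => (s.card : ℝ)) ?_
      ext v
      simp only [mem_filter, mem_biUnion, cls, Fintype.mem_piFinset, tripleBox]
      constructor
      · rintro ⟨hv, hdv⟩
        have hnn : ∀ i, 0 ≤ v i % ((d ^ 2 : ℕ) : ℤ) := fun i =>
          Int.emod_nonneg _ (by exact_mod_cast hd0.ne')
        refine ⟨fun i => (v i % ((d ^ 2 : ℕ) : ℤ)).toNat, mem_filter.mpr
          ⟨Fintype.mem_piFinset.mpr fun i => mem_range.mpr ?_, fun p hp => ?_⟩,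
          fun i => ⟨hv i, (Int.toNat_of_nonneg (hnn i)).symm⟩⟩
        · have := Int.emod_lt_of_pos (v i) (by exact_mod_cast hd0 : (0 : ℤ) < (d ^ 2 : ℕ))
          have := hnn i
          omega
        · refine (badAt_congr fun i => ?_).mpr ((prime_dvd_badProduct
            (Nat.prime_of_mem_primeFactors hp)).mp ((Nat.dvd_of_mem_primeFactors hp).trans hdv)).2
          rw [Int.toNat_of_nonneg (hnn i)]
          refine (Int.mod_modEq (v i) _).of_dvd ?_
          push_cast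
          exact pow_dvd_pow_of_dvd (Int.natCast_dvd_natCast.mpr (Nat.dvd_of_mem_primeFactors hp)) 2
      · rintro ⟨h, hh, hv⟩
        refine ⟨fun i => (hv i).1, ?_⟩
        rw [← Nat.prod_primeFactors_of_squarefree hsq]
        refine Finset.prod_primes_dvd _ (fun p hp => (Nat.prime_of_mem_primeFactors hp).prime)
          fun p hp => (prime_dvd_badProduct (Nat.prime_of_mem_primeFactors hp)).mpr
            ⟨hmem p hp, (badAt_congr fun i => ?_).mpr ((mem_filter.mp hh).2 p hp)⟩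
        rw [← (hv i).2]
        refine ((Int.mod_modEq (v i) _).symm).of_dvd ?_
        push_cast
        exact pow_dvd_pow_of_dvd (Int.natCast_dvd_natCast.mpr (Nat.dvd_of_mem_primeFactors hp)) 2
    · intro h _ h' _ hne
      refine Finset.disjoint_left.mpr fun v hv hv' => hne (funext fun i => ?_)
      have e := (mem_filter.mp (Fintype.mem_piFinset.mp hv i)).2
      have e' := (mem_filter.mp (Fintype.mem_piFinset.mp hv' i)).2
      exact_mod_cast e.symm.trans e'
  have hnu : (conicSieve B Z).nu d * (conicSieve B Z).totalMass =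
      ((badModulo d).card : ℝ) * q ^ 3 := by
    show shareNu d * L ^ 3 = _
    rw [shareNu, ArithmeticFunction.prodPrimeFactors_apply hsq.ne_zero, card_badModulo_eq hsq h2,
      hq, Nat.cast_pow]
    have : (d : ℝ) ≠ 0 := Nat.cast_ne_zero.mpr hsq.ne_zero
    field_simp
  rw [BoundingSieve.rem, hmult, hnu, ← nsmul_eq_mul, ← sum_const, ← sum_sub_distrib]
  refine (abs_sum_le_sum_abs _ _).trans ((sum_le_card_nsmul _ _ _ hcls).trans ?_)
  rw [nsmul_eq_mul]
  refine mul_le_mul_of_nonneg_right ?_ (by positivity)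
  have hle : (badModulo d).card ≤ d ^ 6 := by
    refine (card_filter_le _ _).trans (le_of_eq ?_)
    rw [Fintype.card_piFinset]
    simp only [card_range, Finset.prod_const, card_univ, Fintype.card_fin]
    ring
  exact_mod_cast hle

theorem conicSieve_dimension (Z : ℝ) :
    DimensionBound (sievingPrimes Z 2) shareNu Z (3 / 2) (Real.exp (11 * (3 / 2) + 5)) := by
  refine dimensionBound_of_le (by norm_num) (by norm_num) (fun p hp =>
    ⟨prime_of_mem_sievingPrimes hp, (mem_sievingPrimes.1 hp).2.1⟩) (fun p hp => ?_) fun p hp => ?_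
  all_goals rw [shareNu_prime (prime_of_mem_sievingPrimes hp)]
  · have h := badShare_bounds (prime_of_mem_sievingPrimes hp).two_le
    exact ⟨h.1.le, h.2⟩
  · have hne : p ≠ 2 := fun e => (mem_sievingPrimes.1 hp).2.2 (e ▸ dvd_rfl)
    have := (prime_of_mem_sievingPrimes hp).two_le
    exact (badShare_le (by omega)).2.2

/-- Mertens for the shares. -/
theorem exists_prod_le : ∃ C : ℝ, 0 ≤ C ∧ ∀ Z : ℝ, 2 ≤ Z →
    ∏ p ∈ sievingPrimes Z 2, (1 - badShare p) ≤ C / Real.log Z ^ (3 / 2 : ℝ) := by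
  obtain ⟨c, C, -, h⟩ := exists_mertens_product
  refine ⟨Real.exp 7 * (2 * |C|) ^ (3 / 2 : ℝ), by positivity, fun Z hZ => ?_⟩
  have hlZ : 0 < Real.log Z := Real.log_pos (by linarith)
  set T := (range ⌈Z⌉₊).filter Nat.Prime with hT
  set S := sievingPrimes Z 2 with hSdef
  have hprime : ∀ p ∈ S, p.Prime ∧ 3 ≤ p := fun p hp => by
    obtain ⟨h1, -, h3⟩ := mem_sievingPrimes.mp hp
    refine ⟨h1, ?_⟩
    have := h1.two_le
    rcases Nat.lt_or_ge p 3 with h4 | h4
    · exact absurd (show p ∣ 2 by rw [show p = 2 by omega]) h3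
    · exact h4
  have hterm : ∀ p ∈ S, 1 - badShare p ≤
      (1 - (p : ℝ)⁻¹) ^ (3 / 2 : ℝ) * Real.exp (7 * ((p : ℝ) ^ 2)⁻¹) := fun p hp => by
    obtain ⟨hp1, hp3⟩ := hprime p hp
    have h3 : (3 : ℝ) ≤ p := by exact_mod_cast hp3
    set t := (p : ℝ)⁻¹
    have ht0 : 0 < t := by positivity
    have ht : t ≤ 1 / 2 := by
      rw [inv_le_comm₀ (by positivity) (by norm_num)]
      norm_num
      linarith
    have hkey : Real.exp (-t - t ^ 2) ≤ 1 - t := by
      rw [show -t - t ^ 2 = -(t + t ^ 2) by ring, Real.exp_neg,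
        inv_le_comm₀ (Real.exp_pos _) (by linarith)]
      refine le_trans ?_ (Real.quadratic_le_exp_of_nonneg (by positivity))
      rw [inv_le_iff_one_le_mul₀ (by linarith)]
      nlinarith [pow_le_pow_left₀ ht0.le ht 2, pow_pos ht0 3]
    have h2 := (badShare_le hp3).2.1
    have hb : badShare p ≥ 3 / 2 * t - 5 * t ^ 2 := by
      rw [show 3 / 2 * t - 5 * t ^ 2 = 3 / (2 * (p : ℝ)) - 5 / (p : ℝ) ^ 2 by
        simp only [t]; field_simp]
      exact h2
    calc 1 - badShare p ≤ Real.exp (-badShare p) := Real.one_sub_le_exp_neg _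
      _ ≤ Real.exp ((-t - t ^ 2) * (3 / 2) + 7 * t ^ 2) :=
          Real.exp_le_exp.mpr (by nlinarith)
      _ = Real.exp (-t - t ^ 2) ^ (3 / 2 : ℝ) * Real.exp (7 * t ^ 2) := by
          rw [Real.exp_add, ← Real.exp_mul]
      _ ≤ (1 - t) ^ (3 / 2 : ℝ) * Real.exp (7 * t ^ 2) :=
          mul_le_mul_of_nonneg_right (Real.rpow_le_rpow (Real.exp_pos _).le hkey (by norm_num))
            (Real.exp_pos _).le
      _ = (1 - t) ^ (3 / 2 : ℝ) * Real.exp (7 * ((p : ℝ) ^ 2)⁻¹) := by rw [inv_pow]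
  have hsub : S ⊆ T := fun p hp => mem_filter.mpr
    ⟨mem_range.mpr (Nat.lt_ceil.mpr (mem_sievingPrimes.mp hp).2.1), (hprime p hp).1⟩
  have hnn : ∀ p ∈ T, (1 / 2 : ℝ) ≤ 1 - (p : ℝ)⁻¹ := fun p hp => by
    have h2 : (2 : ℝ) ≤ p := by exact_mod_cast (mem_filter.mp hp).2.two_le
    have := inv_anti₀ two_pos h2
    linarith
  have hdiff : T \ S ⊆ {2} := fun p hp => by
    obtain ⟨hp1, hp2⟩ := mem_sdiff.mp hp
    rw [mem_singleton]
    by_contra hne
    obtain ⟨h1, h2⟩ := mem_filter.mp hp1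
    exact hp2 (mem_sievingPrimes.mpr ⟨h2, Nat.lt_ceil.mp (mem_range.mp h1), fun hd =>
      hne ((Nat.prime_dvd_prime_iff_eq h2 Nat.prime_two).mp hd)⟩)
  have hPS : ∏ p ∈ S, (1 - (p : ℝ)⁻¹) ≤ 2 * |C| / Real.log Z := by
    have hT' : ∏ p ∈ T, (1 - (p : ℝ)⁻¹) ≤ |C| / Real.log Z :=
      (h Z hZ).2.trans (div_le_div_of_nonneg_right (le_abs_self C) hlZ.le)
    rw [← prod_sdiff hsub] at hT'
    have hd : (1 / 2 : ℝ) ≤ ∏ p ∈ T \ S, (1 - (p : ℝ)⁻¹) := by
      rcases Finset.subset_singleton_iff.mp hdiff with e | e <;> rw [e]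
      · norm_num
      · norm_num
    have h0 : 0 ≤ ∏ p ∈ S, (1 - (p : ℝ)⁻¹) :=
      prod_nonneg fun p hp => by linarith [hnn p (hsub hp)]
    rw [mul_div_assoc]
    nlinarith
  have hsum : ∑ p ∈ S, 7 * ((p : ℝ) ^ 2)⁻¹ ≤ 7 := by
    rw [← mul_sum]
    refine (mul_le_mul_of_nonneg_left ?_ (by norm_num)).trans_eq (mul_one 7)
    refine (sum_le_sum_of_subset_of_nonneg (t := Ioc 1 (⌈Z⌉₊ + 1)) (fun p hp => mem_Ioc.mpr
      ⟨(hprime p hp).1.one_lt, ?_⟩) fun p _ _ => by positivity).trans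
      ((sum_Ioc_inv_sq_le_sub (α := ℝ) one_ne_zero (by omega)).trans (by
        rw [Nat.cast_one, inv_one]
        exact sub_le_self _ (by positivity)))
    exact (Nat.lt_ceil.mpr (mem_sievingPrimes.mp hp).2.1).le.trans (Nat.le_succ _)
  have hS1 : ∀ p ∈ S, 0 ≤ 1 - (p : ℝ)⁻¹ := fun p hp => by linarith [hnn p (hsub hp)]
  calc ∏ p ∈ S, (1 - badShare p)
      ≤ ∏ p ∈ S, ((1 - (p : ℝ)⁻¹) ^ (3 / 2 : ℝ) * Real.exp (7 * ((p : ℝ) ^ 2)⁻¹)) :=
        prod_le_prod (fun p hp => sub_nonneg.mpr (badShare_bounds (hprime p hp).1.two_le).2.le)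
          hterm
    _ = (∏ p ∈ S, (1 - (p : ℝ)⁻¹)) ^ (3 / 2 : ℝ) * Real.exp (∑ p ∈ S, 7 * ((p : ℝ) ^ 2)⁻¹) := by
        rw [prod_mul_distrib, Real.finsetProd_rpow _ _ hS1, Real.exp_sum]
    _ ≤ (2 * |C| / Real.log Z) ^ (3 / 2 : ℝ) * Real.exp 7 := by gcongr; exact prod_nonneg hS1
    _ = _ := by rw [Real.div_rpow (by positivity) hlZ.le]; ring

/-- **Few triples escape every bad class.** -/
theorem exists_sifted_bound : ∃ C : ℝ, ∀ᶠ B : ℕ in atTop, ∀ S : Finset (Fin 3 → ℤ),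
    S ⊆ tripleBox B → (∀ v ∈ S, ∀ p : ℕ, p.Prime → p ≠ 2 → ¬BadAt p v) →
      (S.card : ℝ) ≤ C * (B : ℝ) ^ 3 / Real.log B ^ (3 / 2 : ℝ) := by
  obtain ⟨C, hC, hV⟩ := exists_prod_le
  set K : ℝ := 20 * Real.exp (15 : ℕ) * Real.exp (11 * (3 / 2) + 5) ^ 10 * Real.exp (-15)
  refine ⟨27 * ((1 + K) * C * 210 ^ (3 / 2 : ℝ) + 56), ?_⟩
  have hev : ∀ᶠ B : ℕ in atTop, Real.log B ^ (3 / 2 : ℝ) ≤ Real.sqrt B := by
    have h : (fun x : ℝ => Real.log x ^ (3 / 2 : ℝ)) =o[atTop] fun x : ℝ => x ^ (1 / 2 : ℝ) :=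
      isLittleO_log_rpow_rpow_atTop _ (by norm_num)
    filter_upwards [(h.bound one_pos).natCast_atTop] with B hB
    rw [one_mul, Real.norm_eq_abs, Real.norm_eq_abs,
      abs_of_nonneg (Real.rpow_nonneg (Nat.cast_nonneg B) _), ← Real.sqrt_eq_rpow] at hB
    exact (le_abs_self _).trans hB
  filter_upwards [hev, eventually_ge_atTop (2 ^ 210)] with B hlog hB S hS hbad
  have hB1 : (1 : ℝ) ≤ B := by exact_mod_cast le_trans Nat.one_le_two_pow hB
  set Z : ℝ := (B : ℝ) ^ (1 / 210 : ℝ) with hZdef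
  have hZ : 2 ≤ Z := by
    rw [hZdef, show (2 : ℝ) = ((2 : ℝ) ^ (210 : ℕ)) ^ (1 / 210 : ℝ) by
      rw [← Real.rpow_natCast, ← Real.rpow_mul (by norm_num)]; norm_num]
    exact Real.rpow_le_rpow (by positivity) (by exact_mod_cast hB) (by norm_num)
  have hZ15 : (Z ^ (15 : ℝ)) ^ 7 = Real.sqrt B := by
    rw [hZdef, ← Real.rpow_mul (by positivity), ← Real.rpow_natCast,
      ← Real.rpow_mul (by positivity), Real.sqrt_eq_rpow]
    norm_num
  have hmain := (abs_le.1 (fundamental_lemma (conicSieve B Z) (Z := Z) (κ := 3 / 2)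
    (K := Real.exp (11 * (3 / 2) + 5)) (s := 15) (β := 15) (by
      show (0 : ℝ) ≤ _
      exact pow_nonneg (Nat.cast_nonneg _) 3) (fun p hp => by
      rw [show (conicSieve B Z).prodPrimes = sievingProd Z 2 from rfl,
        primeFactors_sievingProd] at hp
      exact (mem_sievingPrimes.1 hp).2.1) hZ (by norm_num) (by norm_num) (by norm_num)
    (Real.one_le_exp (by norm_num)) (by norm_num) (by
      rw [show (conicSieve B Z).prodPrimes = sievingProd Z 2 from rfl, primeFactors_sievingProd]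
      exact conicSieve_dimension Z))).2
  have hVZ : sieveProduct (conicSieve B Z) ≤
      C * 210 ^ (3 / 2 : ℝ) / Real.log B ^ (3 / 2 : ℝ) := by
    have hl : Real.log Z = Real.log B / 210 := by
      rw [hZdef, Real.log_rpow (by positivity)]
      ring
    calc sieveProduct (conicSieve B Z) = ∏ p ∈ sievingPrimes Z 2, (1 - badShare p) := by
          rw [sieveProduct, show (conicSieve B Z).prodPrimes = sievingProd Z 2 from rfl,
            primeFactors_sievingProd]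
          refine prod_congr rfl fun p hp => ?_
          show 1 - shareNu p = _
          rw [shareNu_prime (prime_of_mem_sievingPrimes hp)]
      _ ≤ C / Real.log Z ^ (3 / 2 : ℝ) := hV Z hZ
      _ = _ := by
          rw [hl, Real.div_rpow (Real.log_natCast_nonneg B) (by norm_num), div_div_eq_mul_div]
  set L : ℝ := ((2 * B + 1 : ℕ) : ℝ) with hLdef
  have hL : L ≤ 3 * (B : ℝ) := by
    rw [hLdef]; push_cast; linarith
  have hrem : remSum (conicSieve B Z) (Z ^ (15 : ℝ)) ≤ 56 * L ^ 2 * Real.sqrt B := by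
    have hD : 1 ≤ Z ^ (15 : ℝ) := Real.one_le_rpow (by linarith) (by norm_num)
    calc remSum (conicSieve B Z) (Z ^ (15 : ℝ))
        ≤ ∑ _d ∈ range (⌈Z ^ (15 : ℝ)⌉₊), (Z ^ (15 : ℝ)) ^ 6 * (28 * L ^ 2) := by
          rw [remSum]
          refine (sum_le_sum (g := fun _ => (Z ^ (15 : ℝ)) ^ 6 * (28 * L ^ 2)) fun d hd => ?_).trans
            (sum_le_sum_of_subset_of_nonneg (fun d hd => ?_) fun _ _ _ => by positivity)
          · obtain ⟨hd, hlt⟩ := mem_filter.mp hd
            refine (conicSieve_rem B (Nat.dvd_of_mem_divisors hd)).trans ?_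
            exact mul_le_mul_of_nonneg_right (pow_le_pow_left₀ (Nat.cast_nonneg _) hlt.le 6)
              (by positivity)
          · exact mem_range.mpr (Nat.lt_ceil.mpr (mem_filter.mp hd).2)
      _ ≤ 56 * L ^ 2 * Real.sqrt B := by
          rw [sum_const, card_range, nsmul_eq_mul, ← hZ15]
          have hc : (⌈Z ^ (15 : ℝ)⌉₊ : ℝ) ≤ 2 * Z ^ (15 : ℝ) := by
            have := Nat.ceil_lt_add_one (show (0 : ℝ) ≤ Z ^ (15 : ℝ) by linarith)
            linarith
          calc (⌈Z ^ (15 : ℝ)⌉₊ : ℝ) * ((Z ^ (15 : ℝ)) ^ 6 * (28 * L ^ 2))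
              ≤ 2 * Z ^ (15 : ℝ) * ((Z ^ (15 : ℝ)) ^ 6 * (28 * L ^ 2)) :=
                mul_le_mul_of_nonneg_right hc (by positivity)
            _ = _ := by ring
  have hSle : (S.card : ℝ) ≤ (conicSieve B Z).siftedSum := by
    rw [conicSieve_siftedSum]
    refine Nat.cast_le.mpr (card_le_card fun v hv => mem_filter.mpr ⟨hS hv, fun p hp => ?_⟩)
    exact hbad v hv p (prime_of_mem_sievingPrimes hp) fun e =>
      (mem_sievingPrimes.1 hp).2.2 (e ▸ dvd_rfl)
  have hK : 0 ≤ K := by positivity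
  have hlB : 0 < Real.log B ^ (3 / 2 : ℝ) := Real.rpow_pos_of_pos (Real.log_pos (by
    exact_mod_cast lt_of_lt_of_le (Nat.one_lt_two_pow (by norm_num)) hB)) _
  have hmass : (conicSieve B Z).totalMass = L ^ 3 := rfl
  rw [hmass] at hmain
  have hV0 := (sieveProduct_pos (conicSieve B Z)).le
  have hL0 : 0 ≤ L := Nat.cast_nonneg _
  have hsB : Real.sqrt B * Real.sqrt B = B := Real.mul_self_sqrt (Nat.cast_nonneg B)
  have hsmall : L ^ 2 * Real.sqrt B ≤ 27 * (B : ℝ) ^ 3 / Real.log B ^ (3 / 2 : ℝ) := by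
    rw [le_div_iff₀ hlB]
    calc L ^ 2 * Real.sqrt B * Real.log B ^ (3 / 2 : ℝ)
        ≤ (3 * (B : ℝ)) ^ 2 * Real.sqrt B * Real.sqrt B := by gcongr
      _ = 9 * (B : ℝ) ^ 3 := by rw [mul_assoc, hsB]; ring
      _ ≤ 27 * (B : ℝ) ^ 3 := by nlinarith [pow_pos (show (0 : ℝ) < B by linarith) 3]
  calc (S.card : ℝ)
      ≤ (1 + K) * (L ^ 3 * sieveProduct (conicSieve B Z)) + 56 * L ^ 2 * Real.sqrt B := by
        have := hSle
        simp only [K] at *
        linarith
    _ ≤ (1 + K) * ((3 * (B : ℝ)) ^ 3 * (C * 210 ^ (3 / 2 : ℝ) / Real.log B ^ (3 / 2 : ℝ))) +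
          56 * (27 * (B : ℝ) ^ 3 / Real.log B ^ (3 / 2 : ℝ)) := by
        rw [mul_assoc 56]
        gcongr
    _ = _ := by ring

end FA.ConicCount
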